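/-
GATE-J27 / B2 GJ27-CHEV (helper50), file 1: Chevalley's extension theorem with an algebraically
closed TARGET (Atiyah–Macdonald 5.19–5.23), in "graph" form.

A pair `(A, f : A →+* Ω)` with `A` a subring of the field `K` is encoded by its graph, a subring
`G ≤ K × Ω` which is *functional* (`p.1 = 0 → p.2 = 0`).  Zorn's lemma on functional subrings
(ordered by inclusion) gives a maximal one; if `Ω` is algebraically closed its first projection is a
valuation subring of `K` and the second projection is a LOCAL ring hom to `Ω`.  Mathlib only.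
-/
import Mathlib

set_option autoImplicit false

noncomputable section

namespace Fermat.Agent.GJ27.Chev

open Polynomial

variable {K Ω : Type*} [Field K] [Field Ω]

/-- A subring of `K × Ω` is *functional* if it is the graph of a ring hom from a subring of `K`
to `Ω`. -/
def IsFun (G : Subring (K × Ω)) : Prop := ∀ p ∈ G, p.1 = 0 → p.2 = 0

theorem IsFun.snd_eq {G : Subring (K × Ω)} (hG : IsFun G) {p q : K × Ω} (hp : p ∈ G) (hq : q ∈ G)
    (h : p.1 = q.1) : p.2 = q.2 := by
  have := hG (p - q) (G.sub_mem hp hq) (by simp [h])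
  simpa [sub_eq_zero] using this

section adjoin

variable (G : Subring (K × Ω))

/-- First coordinate on `G`. -/
def fstHom : G →+* K := (RingHom.fst K Ω).comp G.subtype

/-- Second coordinate on `G`. -/
def sndHom : G →+* Ω := (RingHom.snd K Ω).comp G.subtype

@[simp] theorem fstHom_apply (g : G) : fstHom G g = (g : K × Ω).1 := rfl
@[simp] theorem sndHom_apply (g : G) : sndHom G g = (g : K × Ω).2 := rfl

/-- Evaluation of the first coordinates at `x`. -/
def ev₁ (x : K) : G[X] →+* K := eval₂RingHom (fstHom G) x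

/-- Evaluation of the second coordinates at `ω`. -/
def ev₂ (ω : Ω) : G[X] →+* Ω := eval₂RingHom (sndHom G) ω

theorem ev₁_apply (x : K) (P : G[X]) : ev₁ G x P = eval₂ (fstHom G) x P := rfl
theorem ev₂_apply (ω : Ω) (P : G[X]) : ev₂ G ω P = eval₂ (sndHom G) ω P := rfl

theorem ev₂_eq_eval_map (ω : Ω) (P : G[X]) : ev₂ G ω P = (P.map (sndHom G)).eval ω := by
  rw [ev₂_apply, eval_map]

/-- The subring generated by `G` and the point `(x, ω)`. -/
def adj (x : K) (ω : Ω) : Subring (K × Ω) := ((ev₁ G x).prod (ev₂ G ω)).range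

theorem le_adj (x : K) (ω : Ω) : G ≤ adj G x ω := by
  intro p hp
  refine ⟨C ⟨p, hp⟩, ?_⟩
  ext <;> simp [ev₁_apply, ev₂_apply]

theorem mem_adj (x : K) (ω : Ω) : (x, ω) ∈ adj G x ω := by
  refine ⟨X, ?_⟩
  ext <;> simp [ev₁_apply, ev₂_apply]

theorem isFun_adj {x : K} {ω : Ω} (h : ∀ P : G[X], ev₁ G x P = 0 → ev₂ G ω P = 0) :
    IsFun (adj G x ω) := by
  intro p hp h1
  obtain ⟨P, rfl⟩ := hp
  exact h P h1

end adjoin

/-- Maximal functional subrings. -/
structure IsMaxFun (G : Subring (K × Ω)) : Prop where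
  isFun : IsFun G
  max : ∀ G' : Subring (K × Ω), G ≤ G' → IsFun G' → G' ≤ G

/-- **Zorn**: every functional subring is contained in a maximal one. -/
theorem exists_isMaxFun (G₀ : Subring (K × Ω)) (h₀ : IsFun G₀) :
    ∃ G : Subring (K × Ω), G₀ ≤ G ∧ IsMaxFun G := by
  have key : ∀ c ⊆ {G : Subring (K × Ω) | IsFun G}, IsChain (· ≤ ·) c → ∀ y ∈ c,
      ∃ ub ∈ {G : Subring (K × Ω) | IsFun G}, ∀ z ∈ c, z ≤ ub := by
    intro c hc hchain y hy
    refine ⟨sSup c, ?_, fun z hz => le_sSup hz⟩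
    intro p hp h1
    obtain ⟨s, hs, hps⟩ :=
      (Subring.mem_sSup_of_directedOn ⟨y, hy⟩ hchain.directedOn).mp hp
    exact hc hs p hps h1
  obtain ⟨G, hG₀, hmax⟩ := zorn_le_nonempty₀ {G : Subring (K × Ω) | IsFun G} key G₀ h₀
  exact ⟨G, hG₀, hmax.prop, fun G' hle hfun => hmax.le_of_ge hfun hle⟩

namespace IsMaxFun

variable {G : Subring (K × Ω)} (hG : IsMaxFun G)
include hG

/-- A point satisfying the compatibility condition already lies in a maximal functional subring. -/
theorem mem_of_forall {x : K} {ω : Ω} (h : ∀ P : G[X], ev₁ G x P = 0 → ev₂ G ω P = 0) :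
    (x, ω) ∈ G :=
  hG.max _ (le_adj G x ω) (isFun_adj G h) (mem_adj G x ω)

/-- (AM 5.19) `G` is closed under inverting points with nonzero second coordinate. -/
theorem inv_mem {a : K} {w : Ω} (haw : (a, w) ∈ G) (hw : w ≠ 0) : (a⁻¹, w⁻¹) ∈ G := by
  have ha : a ≠ 0 := fun h => hw (hG.isFun (a, w) haw h)
  refine hG.mem_of_forall fun P hP => ?_
  set g : G := ⟨(a, w), haw⟩ with hg
  -- evaluate the reversed polynomial at `g`
  set r : G := (P.reverse).eval g with hr
  let _ia : Invertible a := invertibleOfNonzero ha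
  let _iw : Invertible w := invertibleOfNonzero hw
  let _ia' : Invertible a⁻¹ := invertibleOfNonzero (inv_ne_zero ha)
  let _iw' : Invertible w⁻¹ := invertibleOfNonzero (inv_ne_zero hw)
  have h1 : eval₂ (fstHom G) a P.reverse = 0 := by
    have := eval₂_reverse_mul_pow (fstHom G) a⁻¹ P
    rw [invOf_eq_inv, inv_inv] at this
    rw [ev₁_apply] at hP
    rw [hP] at this
    exact (mul_eq_zero.mp this).resolve_right (pow_ne_zero _ (inv_ne_zero ha))
  have h2 : (r : K × Ω).1 = 0 := by
    have : fstHom G r = eval₂ (fstHom G) (fstHom G g) P.reverse := by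
      rw [hr, eval, hom_eval₂, RingHom.comp_id]
    rw [fstHom_apply] at this
    rw [this]
    simpa [hg] using h1
  have h3 : (r : K × Ω).2 = 0 := hG.isFun _ r.2 h2
  have h4 : eval₂ (sndHom G) w P.reverse = 0 := by
    have : sndHom G r = eval₂ (sndHom G) (sndHom G g) P.reverse := by
      rw [hr, eval, hom_eval₂, RingHom.comp_id]
    rw [sndHom_apply, h3] at this
    simpa [hg] using this.symm
  have := eval₂_reverse_mul_pow (sndHom G) w⁻¹ P
  rw [invOf_eq_inv, inv_inv, h4, zero_mul] at this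
  rw [ev₂_apply]
  exact this.symm


/-- (L1) If no `ω` makes `(x, ω)` compatible with `G`, there is a relation `P(x) = 0` whose second
coordinates reduce to the constant polynomial `1` (i.e. `1 ∈ 𝔪[x]`). -/
theorem exists_rel_of_forall_not [IsAlgClosed Ω] {x : K}
    (h : ∀ ω : Ω, ¬ ∀ P : G[X], ev₁ G x P = 0 → ev₂ G ω P = 0) :
    ∃ P : G[X], ev₁ G x P = 0 ∧ P.map (sndHom G) = 1 := by
  classical
  -- the set of degrees of nonzero reductions of relations
  have hex : ∃ d : ℕ, ∃ P : G[X], ev₁ G x P = 0 ∧ P.map (sndHom G) ≠ 0 ∧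
      (P.map (sndHom G)).natDegree = d := by
    have h0 := h 0
    push Not at h0
    obtain ⟨P, hP1, hP2⟩ := h0
    refine ⟨_, P, hP1, fun h0 => hP2 ?_, rfl⟩
    rw [ev₂_eq_eval_map, h0, eval_zero]
  obtain ⟨P, hP1, hP0, hPd⟩ := Nat.find_spec hex
  set d := Nat.find hex with hd
  have hmin : ∀ R : G[X], ev₁ G x R = 0 → R.map (sndHom G) ≠ 0 →
      d ≤ (R.map (sndHom G)).natDegree := fun R hR1 hR0 =>
    Nat.find_min' hex ⟨R, hR1, hR0, rfl⟩
  -- normalise the leading coefficient
  set u : G := P.coeff d with hu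
  have hu2 : (u : K × Ω).2 = (P.map (sndHom G)).leadingCoeff := by
    rw [leadingCoeff, hPd, coeff_map, sndHom_apply]
  have hu2ne : (u : K × Ω).2 ≠ 0 := by
    rw [hu2]; exact leadingCoeff_ne_zero.mpr hP0
  have hinv : ((u : K × Ω).1⁻¹, (u : K × Ω).2⁻¹) ∈ G := hG.inv_mem (a := (u : K × Ω).1)
    (w := (u : K × Ω).2) u.2 hu2ne
  set u' : G := ⟨_, hinv⟩ with hu'
  set P' : G[X] := C u' * P with hP'
  have hP'1 : ev₁ G x P' = 0 := by rw [hP', map_mul, hP1, mul_zero]
  have hP'map : P'.map (sndHom G) = C ((u : K × Ω).2⁻¹) * P.map (sndHom G) := by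
    rw [hP', Polynomial.map_mul, map_C, sndHom_apply]
  have hmonic : (P'.map (sndHom G)).Monic := by
    rw [hP'map]
    exact monic_C_mul_of_mul_leadingCoeff_eq_one (by rw [← hu2]; exact inv_mul_cancel₀ hu2ne)
  have hdeg' : (P'.map (sndHom G)).natDegree = d := by
    rw [hP'map, natDegree_C_mul (inv_ne_zero hu2ne), hPd]
  rcases Nat.eq_zero_or_pos d with hd0 | hdpos
  · -- degree `0`: the relation itself
    refine ⟨P', hP'1, ?_⟩
    rw [hd0] at hdeg'
    exact hmonic.natDegree_eq_zero.mp hdeg'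
  · -- positive degree: a root gives a smaller relation
    exfalso
    have hdegne : (P'.map (sndHom G)).degree ≠ 0 := by
      rw [degree_eq_natDegree hmonic.ne_zero, hdeg']
      exact_mod_cast hdpos.ne'
    obtain ⟨ω, hω⟩ := IsAlgClosed.exists_root _ hdegne
    have hω' := h ω
    push Not at hω'
    obtain ⟨Q, hQ1, hQ2⟩ := hω'
    rw [ev₂_eq_eval_map] at hQ2
    obtain ⟨P'', hP''map, -, hP''monic⟩ :=
      lifts_and_natDegree_eq_and_monic ((mem_lifts _).mpr ⟨P', rfl⟩) hmonic
    set R : G[X] := Q - P' * (Q /ₘ P'') with hR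
    have hR1 : ev₁ G x R = 0 := by rw [hR, map_sub, map_mul, hQ1, hP'1, zero_mul, sub_zero]
    have hRmap : R.map (sndHom G) = Q.map (sndHom G) %ₘ P'.map (sndHom G) := by
      rw [hR, Polynomial.map_sub, Polynomial.map_mul, map_divByMonic _ hP''monic, hP''map]
      rw [modByMonic_eq_sub_mul_div]
    have hne1 : P'.map (sndHom G) ≠ 1 := by
      intro h1
      rw [h1, natDegree_one] at hdeg'
      omega
    have hRdeg : (R.map (sndHom G)).natDegree < d := by
      rw [hRmap, ← hdeg']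
      exact natDegree_modByMonic_lt _ hmonic hne1
    have hRne : R.map (sndHom G) ≠ 0 := by
      intro h0
      apply hQ2
      have hroot : (P'.map (sndHom G)).eval ω = 0 := hω
      have : (Q.map (sndHom G) %ₘ P'.map (sndHom G)).eval ω = (Q.map (sndHom G)).eval ω := by
        rw [modByMonic_eq_sub_mul_div, eval_sub, eval_mul, hroot, zero_mul, sub_zero]
      rw [← this, ← hRmap, h0, eval_zero]
    exact absurd (hmin R hR1 hRne) (by omega)

/-- (AM 5.20, step) From relations for `x` and `x⁻¹` one gets a relation for `x` of smaller degree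
than the one for `x⁻¹`. -/
theorem exists_rel_lt {x : K} (hx : x ≠ 0) (P Q : G[X]) (hQpos : 0 < Q.natDegree)
    (hP1 : ev₁ G x P = 0) (hP2 : P.map (sndHom G) = 1)
    (hQ1 : ev₁ G x⁻¹ Q = 0) (hQ2 : Q.map (sndHom G) = 1) :
    ∃ R : G[X], R.natDegree < Q.natDegree ∧ ev₁ G x R = 0 ∧ R.map (sndHom G) = 1 := by
  classical
  set n := Q.natDegree with hn
  -- the constant coefficient of `Q` is a unit of `G`
  set u : G := Q.coeff 0 with hu
  have hu2 : (u : K × Ω).2 = 1 := by
    have := congrArg (fun p => coeff p 0) hQ2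
    simpa [coeff_map] using this
  have hu2ne : (u : K × Ω).2 ≠ 0 := by rw [hu2]; exact one_ne_zero
  have hu1ne : (u : K × Ω).1 ≠ 0 := fun h => hu2ne (hG.isFun _ u.2 h)
  have hinv : ((u : K × Ω).1⁻¹, (u : K × Ω).2⁻¹) ∈ G := hG.inv_mem (a := (u : K × Ω).1)
    (w := (u : K × Ω).2) u.2 hu2ne
  set u' : G := ⟨_, hinv⟩ with hu'
  have huu : u' * u = 1 := by
    apply Subtype.ext
    apply Prod.ext
    · simp [hu', inv_mul_cancel₀ hu1ne]
    · simp [hu', inv_mul_cancel₀ hu2ne]
  have hu0 : u ≠ 0 := by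
    intro h0
    apply hu1ne
    rw [h0]; rfl
  have htrail : Q.natTrailingDegree = 0 := by
    apply natTrailingDegree_eq_zero_of_constantCoeff_ne_zero
    simpa [constantCoeff_apply] using hu0
  have hrevdeg : Q.reverse.natDegree = n := by
    rw [reverse_natDegree, htrail, Nat.sub_zero]
  have hrevlead : Q.reverse.leadingCoeff = u := by
    rw [reverse_leadingCoeff, trailingCoeff, htrail]
  set Q' : G[X] := C u' * Q.reverse with hQ'
  have hQ'monic : Q'.Monic :=
    monic_C_mul_of_mul_leadingCoeff_eq_one (by rw [hrevlead]; exact huu)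
  have hQ'deg : Q'.natDegree = n := by
    have h1 : Q'.natDegree ≤ n := by
      rw [hQ']
      exact (natDegree_C_mul_le _ _).trans hrevdeg.le
    have h2 : Q'.coeff n = 1 := by
      rw [hQ', coeff_C_mul, ← hrevdeg, coeff_natDegree, hrevlead, huu]
    exact le_antisymm h1 (le_natDegree_of_ne_zero (by rw [h2]; exact one_ne_zero))
  -- `Q'` vanishes at `x`
  have hrev1 : ev₁ G x Q.reverse = 0 := by
    let _ix : Invertible x⁻¹ := invertibleOfNonzero (inv_ne_zero hx)
    have := eval₂_reverse_mul_pow (fstHom G) x⁻¹ Q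
    rw [invOf_eq_inv, inv_inv] at this
    rw [ev₁_apply] at hQ1 ⊢
    rw [hQ1] at this
    exact (mul_eq_zero.mp this).resolve_right (pow_ne_zero _ (inv_ne_zero hx))
  have hQ'1 : ev₁ G x Q' = 0 := by rw [hQ', map_mul, hrev1, mul_zero]
  -- the reduction of `Q'` is `X ^ n`
  have hrevmap : Q.reverse.map (sndHom G) = X ^ n := by
    ext i
    rw [coeff_map, coeff_X_pow, coeff_reverse]
    have hc : ∀ j, sndHom G (Q.coeff j) = if j = 0 then 1 else 0 := by
      intro j
      have := congrArg (fun p => coeff p j) hQ2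
      simp only [coeff_map, coeff_one] at this
      rw [this]
    rw [hc]
    have hrev : revAt Q.natDegree i = 0 ↔ i = n := by
      rcases le_or_gt i Q.natDegree with hle | hlt
      · rw [revAt_le hle]; omega
      · rw [revAt_eq_self_of_lt hlt]; omega
    by_cases hin : i = n
    · rw [if_pos (hrev.mpr hin), if_pos hin]
    · rw [if_neg (fun h => hin (hrev.mp h)), if_neg hin]
  have hQ'map : Q'.map (sndHom G) = X ^ n := by
    rw [hQ', Polynomial.map_mul, map_C, hrevmap, sndHom_apply]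
    simp [hu', hu2]
  refine ⟨P %ₘ Q', ?_, ?_, ?_⟩
  · rw [← hQ'deg]
    refine natDegree_modByMonic_lt _ hQ'monic ?_
    intro h1
    rw [h1, natDegree_one] at hQ'deg
    omega
  · rw [modByMonic_eq_sub_mul_div, map_sub, map_mul, hP1, hQ'1, zero_mul, sub_zero]
  · rw [map_modByMonic _ hQ'monic, hP2, hQ'map]
    rw [modByMonic_eq_self_iff (monic_X_pow n)]
    rw [degree_one, degree_X_pow]
    exact_mod_cast hQpos

/-- (AM 5.20) There are no simultaneous relations for `x` and `x⁻¹`. -/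
theorem rel_false (n : ℕ) : ∀ {x : K}, x ≠ 0 → ∀ P Q : G[X], Q.natDegree ≤ n →
    ev₁ G x P = 0 → P.map (sndHom G) = 1 → ev₁ G x⁻¹ Q = 0 → Q.map (sndHom G) = 1 → False := by
  have hbase : ∀ {x : K} (Q : G[X]), Q.natDegree = 0 → ev₁ G x⁻¹ Q = 0 →
      Q.map (sndHom G) = 1 → False := by
    intro x Q hQ0 hQ1 hQ2
    rw [eq_C_of_natDegree_eq_zero hQ0] at hQ1 hQ2
    rw [ev₁_apply, eval₂_C, fstHom_apply] at hQ1
    have h2 := hG.isFun _ (Q.coeff 0).2 hQ1
    rw [map_C, sndHom_apply, h2, map_zero] at hQ2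
    exact zero_ne_one hQ2
  induction n with
  | zero =>
    intro x _ P Q hQn _ _ hQ1 hQ2
    exact hbase Q (Nat.le_zero.mp hQn) hQ1 hQ2
  | succ n ih =>
    intro x hx P Q hQn hP1 hP2 hQ1 hQ2
    rcases Nat.eq_zero_or_pos Q.natDegree with h0 | hpos
    · exact hbase Q h0 hQ1 hQ2
    · obtain ⟨R, hRdeg, hR1, hR2⟩ := hG.exists_rel_lt hx P Q hpos hP1 hP2 hQ1 hQ2
      refine ih (inv_ne_zero hx) Q R (by omega) hQ1 hQ2 ?_ hR2
      rwa [inv_inv]

/-- (AM 5.21) The first projection of a maximal functional subring is a valuation ring. -/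
theorem mem_or_inv_mem [IsAlgClosed Ω] (x : K) :
    (∃ ω : Ω, (x, ω) ∈ G) ∨ (∃ ω : Ω, (x⁻¹, ω) ∈ G) := by
  rcases eq_or_ne x 0 with rfl | hx
  · exact Or.inl ⟨0, G.zero_mem⟩
  by_contra hcon
  push Not at hcon
  obtain ⟨h1, h2⟩ := hcon
  obtain ⟨P, hP1, hP2⟩ := hG.exists_rel_of_forall_not (x := x)
    (fun ω hω => h1 ω (hG.mem_of_forall hω))
  obtain ⟨Q, hQ1, hQ2⟩ := hG.exists_rel_of_forall_not (x := x⁻¹)
    (fun ω hω => h2 ω (hG.mem_of_forall hω))
  exact hG.rel_false Q.natDegree hx P Q le_rfl hP1 hP2 hQ1 hQ2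


section valSub

variable [IsAlgClosed Ω]

/-- The valuation subring of `K` attached to a maximal functional subring: its first projection. -/
def valSub : ValuationSubring K :=
  { G.map (RingHom.fst K Ω) with
    mem_or_inv_mem' := fun x => by
      rcases hG.mem_or_inv_mem x with ⟨ω, h⟩ | ⟨ω, h⟩
      · exact Or.inl (Subring.mem_map.mpr ⟨(x, ω), h, rfl⟩)
      · exact Or.inr (Subring.mem_map.mpr ⟨(x⁻¹, ω), h, rfl⟩) }

theorem mem_valSub {x : K} : x ∈ hG.valSub ↔ ∃ ω : Ω, (x, ω) ∈ G := by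
  change x ∈ G.map (RingHom.fst K Ω) ↔ _
  rw [Subring.mem_map]
  constructor
  · rintro ⟨p, hp, rfl⟩
    exact ⟨p.2, hp⟩
  · rintro ⟨ω, h⟩
    exact ⟨(x, ω), h, rfl⟩

/-- The value of the ring hom encoded by `G`. -/
def toFun (a : hG.valSub) : Ω := Classical.choose (hG.mem_valSub.mp a.2)

theorem mem_toFun (a : hG.valSub) : ((a : K), hG.toFun a) ∈ G :=
  Classical.choose_spec (hG.mem_valSub.mp a.2)

theorem toFun_eq (a : hG.valSub) {ω : Ω} (h : ((a : K), ω) ∈ G) : hG.toFun a = ω :=
  hG.isFun.snd_eq (hG.mem_toFun a) h rfl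

/-- The ring hom `A → Ω` encoded by `G`. -/
def hom : hG.valSub →+* Ω where
  toFun := hG.toFun
  map_one' := hG.toFun_eq _ G.one_mem
  map_zero' := hG.toFun_eq _ G.zero_mem
  map_mul' a b := hG.toFun_eq _ (G.mul_mem (hG.mem_toFun a) (hG.mem_toFun b))
  map_add' a b := hG.toFun_eq _ (G.add_mem (hG.mem_toFun a) (hG.mem_toFun b))

theorem hom_apply (a : hG.valSub) : hG.hom a = hG.toFun a := rfl

theorem hom_eq (a : hG.valSub) {ω : Ω} (h : ((a : K), ω) ∈ G) : hG.hom a = ω := hG.toFun_eq a h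

/-- The kernel of `hom` is the maximal ideal. -/
theorem hom_eq_zero_iff (a : hG.valSub) : hG.hom a = 0 ↔ a ∈ IsLocalRing.maximalIdeal hG.valSub := by
  rw [IsLocalRing.mem_maximalIdeal, mem_nonunits_iff]
  constructor
  · intro h0 hu
    obtain ⟨b, hb⟩ := hu.exists_right_inv
    have := congrArg hG.hom hb
    rw [map_mul, h0, zero_mul, map_one] at this
    exact zero_ne_one this
  · intro hnu
    by_contra hne
    apply hnu
    have hmem := hG.inv_mem (hG.mem_toFun a) (by rwa [← hom_apply])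
    have ha0 : (a : K) ≠ 0 := by
      intro h0
      apply hne
      have : a = 0 := Subtype.ext h0
      rw [this, map_zero]
    have hinv : (a : K)⁻¹ ∈ hG.valSub := hG.mem_valSub.mpr ⟨_, hmem⟩
    exact IsUnit.of_mul_eq_one (⟨_, hinv⟩ : hG.valSub) (Subtype.ext (mul_inv_cancel₀ ha0))

instance isLocalHom_hom : IsLocalHom hG.hom where
  map_nonunit a ha := by
    by_contra hnu
    have : hG.hom a = 0 := (hG.hom_eq_zero_iff a).mpr
      ((IsLocalRing.mem_maximalIdeal a).mpr hnu)
    rw [this] at ha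
    exact not_isUnit_zero ha

end valSub

end IsMaxFun

/-- **Chevalley's extension theorem with algebraically closed target.**  A ring hom from a subring
`B` of a field `K` to an algebraically closed field `Ω` extends to a valuation subring `A ⊇ B` of `K`,
as a LOCAL ring hom (its kernel is the maximal ideal of `A`). -/
theorem exists_valuationSubring_of_ringHom [IsAlgClosed Ω] (B : Subring K) (f : B →+* Ω) :
    ∃ (A : ValuationSubring K) (g : A →+* Ω) (hBA : B ≤ A.toSubring),
      (∀ b : B, g ⟨b, hBA b.2⟩ = f b) ∧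
      (∀ a : A, g a = 0 ↔ a ∈ IsLocalRing.maximalIdeal A) ∧ IsLocalHom g := by
  set G₀ : Subring (K × Ω) := (B.subtype.prod f).range with hG₀
  have h₀ : IsFun G₀ := by
    rintro _ ⟨b, rfl⟩ h1
    have hb : b = 0 := Subtype.ext h1
    simp [hb]
  obtain ⟨G, hle, hG⟩ := exists_isMaxFun G₀ h₀
  have hmemG : ∀ b : B, ((b : K), f b) ∈ G := fun b => hle ⟨b, rfl⟩
  have hBA : B ≤ hG.valSub.toSubring := fun b hb => hG.mem_valSub.mpr ⟨f ⟨b, hb⟩, hmemG ⟨b, hb⟩⟩
  refine ⟨hG.valSub, hG.hom, hBA, fun b => hG.hom_eq _ (hmemG b), hG.hom_eq_zero_iff,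
    hG.isLocalHom_hom⟩

end Fermat.Agent.GJ27.Chev

end
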