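/-
GATE-J27 / B2 GJ27-CHEV (helper50), file 2: a Chevalley place with ALGEBRAIC residue field.

`K` algebraically closed, `T ⊆ K` finite.  There is a valuation subring `A ⊇ T` of `K` whose residue
field has prime characteristic `p`, is algebraic over `𝔽_p` (every element is fixed by a power of the
`p`-Frobenius), is algebraically closed, and such that the image of `ℤ[T]` in it is FINITE (fixed by
ONE power of Frobenius).  To make `d ≠ 0` a unit of `A`, put `d` and `d⁻¹` in `T`
(`exists_place_unit`).  No rank-one / completeness claim: `A` has arbitrary rank.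

Proof: `B := ℤ[T]` is a finitely generated `ℤ`-algebra, a maximal ideal `n` has finite residue field
(`ℤ` is a Jacobson ring), and `B → B/n → AlgebraicClosure (B/n)` extends to a valuation ring by
`Graph.exists_valuationSubring_of_ringHom`.
-/
import Fermat.Agent.GJ27.Chev.Graph
import Fermat.Agent.GJ.J1.ResidueAlgClosed

set_option autoImplicit false

noncomputable section

namespace Fermat.Agent.GJ27.Chev

open Polynomial IsLocalRing

/-- `ℤ` is a Jacobson ring. -/
theorem isJacobsonRing_int : IsJacobsonRing ℤ := by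
  rw [isJacobsonRing_iff_prime_eq]
  intro P hP
  by_cases h0 : P = ⊥
  · subst h0
    refine le_antisymm (fun x hx => ?_) Ideal.le_jacobson
    have h := (Ideal.mem_jacobson_bot.mp hx) x
    rcases Int.isUnit_iff.mp h with h1 | h1
    · have : x * x = 0 := by linarith
      rw [Ideal.mem_bot]
      exact mul_self_eq_zero.mp this
    · nlinarith [mul_self_nonneg x]
  · have := hP.isMaximal h0
    exact Ideal.jacobson_eq_self_of_isMaximal

/-- A field which is a finitely generated `ℤ`-algebra is finite. -/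
theorem finite_of_finiteType_int (k : Type*) [Field k] [Algebra ℤ k] [Algebra.FiniteType ℤ k] :
    Finite k := by
  have := isJacobsonRing_int
  have hmf : @Module.Finite ℤ k _ _ Algebra.toModule :=
    finite_of_finite_type_of_isJacobsonRing ℤ k
  have : Algebra.IsIntegral ℤ k := @Algebra.IsIntegral.of_finite ℤ k _ _ _ hmf
  -- the characteristic is positive
  have hninj : ¬ Function.Injective (algebraMap ℤ k) := fun hinj =>
    Int.not_isField (isField_of_isIntegral_of_isField hinj (Field.toIsField k))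
  rw [injective_iff_map_eq_zero] at hninj
  push Not at hninj
  obtain ⟨m, hm, hm0⟩ := hninj
  have hmod : (Algebra.toModule : Module ℤ k) = AddCommGroup.toIntModule k :=
    Subsingleton.elim _ _
  have hmf' : Module.Finite ℤ k := hmod ▸ hmf
  refine Module.finite_of_fg_torsion k ?_
  intro x
  refine ⟨⟨m, mem_nonZeroDivisors_of_ne_zero hm0⟩, ?_⟩
  rw [Submonoid.mk_smul, zsmul_eq_mul, ← eq_intCast (algebraMap ℤ k) m, hm, zero_mul]

/-- In a field of characteristic `p` which is algebraic over a finite subfield (given as the range of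
an embedding of a finite field), every element is fixed by a power of the `p`-Frobenius. -/
theorem exists_pow_eq_self_of_isAlgebraic {k₀ Ω : Type*} [Field k₀] [Finite k₀] [Field Ω]
    [Algebra k₀ Ω] [Algebra.IsAlgebraic k₀ Ω] (p : ℕ) [CharP Ω p] (y : Ω) :
    ∃ m : ℕ, 0 < m ∧ y ^ p ^ m = y := by
  classical
  have hint : IsIntegral k₀ y := (Algebra.IsAlgebraic.isAlgebraic y).isIntegral
  have : FiniteDimensional k₀ (IntermediateField.adjoin k₀ {y}) :=
    IntermediateField.adjoin.finiteDimensional hint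
  have : Finite (IntermediateField.adjoin k₀ {y}) := Module.finite_of_finite k₀
  have := Fintype.ofFinite (IntermediateField.adjoin k₀ {y})
  have hcp : CharP (IntermediateField.adjoin k₀ {y}) p :=
    (RingHom.charP_iff (algebraMap (IntermediateField.adjoin k₀ {y}) Ω)
      (algebraMap (IntermediateField.adjoin k₀ {y}) Ω).injective p).mpr inferInstance
  obtain ⟨m, -, hm⟩ := FiniteField.card (IntermediateField.adjoin k₀ {y}) p
  refine ⟨m, m.pos, ?_⟩
  have hy : y ∈ IntermediateField.adjoin k₀ {y} :=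
    IntermediateField.subset_adjoin k₀ {y} rfl
  have := FiniteField.pow_card (⟨y, hy⟩ : IntermediateField.adjoin k₀ {y})
  rw [hm] at this
  exact congrArg Subtype.val this

/-- **Chevalley place with algebraic residue field.**  `K` algebraically closed, `T ⊆ K` finite:
there is a valuation subring `A ⊇ T` whose residue field `κ` has prime characteristic `p`, is
algebraically closed, every element of `κ` is fixed by a power of the `p`-Frobenius (so `κ` is
algebraic over `𝔽_p`), and the image of `ℤ[T]` in `κ` is fixed by ONE power `p ^ n` of Frobenius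
(so it is a finite subring, contained in `𝔽_{p^n}`). -/
theorem exists_place {K : Type*} [Field K] [IsAlgClosed K] (T : Finset K) :
    ∃ (A : ValuationSubring K) (p n : ℕ),
      p.Prime ∧ 0 < n ∧ (∀ t ∈ T, t ∈ A) ∧ CharP (ResidueField A) p ∧
      IsAlgClosed (ResidueField A) ∧
      (∀ x : ResidueField A, ∃ m : ℕ, 0 < m ∧ x ^ p ^ m = x) ∧
      (∀ (b : K) (hb : b ∈ A), b ∈ Subring.closure (T : Set K) →
        residue A ⟨b, hb⟩ ^ p ^ n = residue A ⟨b, hb⟩) := by
  classical
  -- the finitely generated ring `B = ℤ[T]`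
  set B : Subalgebra ℤ K := Algebra.adjoin ℤ (T : Set K) with hB
  have hFT : Algebra.FiniteType ℤ B := (Subalgebra.fg_iff_finiteType B).mp
    (Subalgebra.fg_adjoin_finset T)
  obtain ⟨n, hn⟩ := Ideal.exists_maximal B
  let _ : Field (B ⧸ n) := Ideal.Quotient.field n
  have hFT' : Algebra.FiniteType ℤ (B ⧸ n) :=
    Algebra.FiniteType.of_surjective (Ideal.Quotient.mkₐ ℤ n) (Ideal.Quotient.mkₐ_surjective ℤ n)
  have hfin : Finite (B ⧸ n) := finite_of_finiteType_int (B ⧸ n)
  have := Fintype.ofFinite (B ⧸ n)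
  -- its characteristic
  obtain ⟨p, hcp⟩ := CharP.exists (B ⧸ n)
  have hp : p.Prime := CharP.char_is_prime (B ⧸ n) p
  obtain ⟨n₀, -, hcard⟩ := FiniteField.card (B ⧸ n) p
  -- the target
  let Ω := AlgebraicClosure (B ⧸ n)
  have hcpΩ : CharP Ω p := charP_of_injective_algebraMap (algebraMap (B ⧸ n) Ω).injective p
  let ι : B.toSubring →+* B := (B.toSubring.subtype).codRestrict B (fun x => x.2)
  let f : B.toSubring →+* Ω := ((algebraMap (B ⧸ n) Ω).comp (Ideal.Quotient.mk n)).comp ι
  obtain ⟨A, g, hBA, hext, hker, hloc⟩ := exists_valuationSubring_of_ringHom B.toSubring f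
  -- the embedding of the residue field
  let gbar : ResidueField A →+* Ω := ResidueField.lift g
  have hgbar : ∀ a : A, gbar (residue A a) = g a := fun a => ResidueField.lift_residue_apply g a
  have hinj : Function.Injective gbar := gbar.injective
  have hcpκ : CharP (ResidueField A) p := (RingHom.charP_iff gbar hinj p).mpr hcpΩ
  have hTB : ∀ t ∈ T, t ∈ B := fun t ht => Algebra.subset_adjoin (Finset.mem_coe.mpr ht)
  refine ⟨A, p, n₀, hp, n₀.pos, fun t ht => hBA (hTB t ht), hcpκ, inferInstance, ?_, ?_⟩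
  · intro x
    obtain ⟨m, hm, hx⟩ := exists_pow_eq_self_of_isAlgebraic (k₀ := B ⧸ n) p (gbar x)
    refine ⟨m, hm, hinj ?_⟩
    rw [map_pow, hx]
  · intro b hb hbT
    have hbB : b ∈ B := by
      rw [hB, Algebra.adjoin_int]
      exact hbT
    apply hinj
    rw [map_pow, hgbar]
    have h1 : g ⟨b, hb⟩ = f ⟨b, hbB⟩ := hext ⟨b, hbB⟩
    rw [h1]
    change (algebraMap (B ⧸ n) Ω (Ideal.Quotient.mk n ⟨b, hbB⟩)) ^ p ^ (n₀ : ℕ) = _
    rw [← map_pow, ← hcard, FiniteField.pow_card]
    rfl

/-- The same with a prescribed element `d ≠ 0` made a unit of `A`. -/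
theorem exists_place_unit {K : Type*} [Field K] [IsAlgClosed K] (S : Finset K) (d : K) :
    ∃ (A : ValuationSubring K) (p n : ℕ),
      p.Prime ∧ 0 < n ∧ (∀ s ∈ S, s ∈ A) ∧ d ∈ A ∧ d⁻¹ ∈ A ∧ CharP (ResidueField A) p ∧
      IsAlgClosed (ResidueField A) ∧
      (∀ x : ResidueField A, ∃ m : ℕ, 0 < m ∧ x ^ p ^ m = x) ∧
      (∀ (b : K) (hb : b ∈ A), b ∈ Subring.closure ((S : Set K) ∪ {d, d⁻¹}) →
        residue A ⟨b, hb⟩ ^ p ^ n = residue A ⟨b, hb⟩) := by
  classical
  obtain ⟨A, p, n, hp, hn, hT, hcp, hac, halg, hfix⟩ := exists_place (S ∪ {d, d⁻¹})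
  refine ⟨A, p, n, hp, hn, fun s hs => hT s (Finset.mem_union_left _ hs),
    hT d (Finset.mem_union_right _ (by simp)), hT d⁻¹ (Finset.mem_union_right _ (by simp)),
    hcp, hac, halg, fun b hb hbT => hfix b hb ?_⟩
  convert hbT using 2
  push_cast
  rfl

/-- A nonzero element `u` of a valuation subring `A` with `u⁻¹ ∈ A` has nonzero residue. -/
theorem residue_ne_zero_of_inv_mem {K : Type*} [Field K] (A : ValuationSubring K) {u : K}
    (hu : u ∈ A) (hu' : u⁻¹ ∈ A) (hu0 : u ≠ 0) : residue A ⟨u, hu⟩ ≠ 0 := by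
  intro h0
  have h1 : residue A (⟨u, hu⟩ * ⟨u⁻¹, hu'⟩) = 1 := by
    have : (⟨u, hu⟩ * ⟨u⁻¹, hu'⟩ : A) = 1 := Subtype.ext (mul_inv_cancel₀ hu0)
    rw [this, map_one]
  rw [map_mul, h0, zero_mul] at h1
  exact zero_ne_one h1

/-- **Chevalley place, consumer form.**  `S` is put in `A`, every element of `U` becomes a unit of
`A`, and the residue characteristic is different from a prescribed natural number `ℓ` that is
nonzero in `K`. -/
theorem exists_place_units {K : Type*} [Field K] [IsAlgClosed K] (S U : Finset K) (ℓ : ℕ)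
    (hℓ : (ℓ : K) ≠ 0) :
    ∃ (A : ValuationSubring K) (p n : ℕ),
      p.Prime ∧ p ≠ ℓ ∧ 0 < n ∧ (∀ s ∈ S, s ∈ A) ∧ (∀ u ∈ U, u ∈ A ∧ u⁻¹ ∈ A) ∧
      CharP (ResidueField A) p ∧ IsAlgClosed (ResidueField A) ∧
      (∀ x : ResidueField A, ∃ m : ℕ, 0 < m ∧ x ^ p ^ m = x) ∧
      (∀ (b : K) (hb : b ∈ A), b ∈ Subring.closure ((S : Set K) ∪ U ∪ (fun u => u⁻¹) '' U) →
        residue A ⟨b, hb⟩ ^ p ^ n = residue A ⟨b, hb⟩) := by
  classical
  obtain ⟨A, p, n, hp, hn, hT, hcp, hac, halg, hfix⟩ :=
    exists_place (S ∪ U ∪ U.image (fun u => u⁻¹) ∪ {(ℓ : K), (ℓ : K)⁻¹})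
  have hℓA : (ℓ : K) ∈ A := hT _ (Finset.mem_union_right _ (by simp))
  have hℓA' : (ℓ : K)⁻¹ ∈ A := hT _ (Finset.mem_union_right _ (by simp))
  refine ⟨A, p, n, hp, ?_, hn, fun s hs => hT s (by simp [hs]),
    fun u hu => ⟨hT u (by simp [hu]), hT u⁻¹ ?_⟩, hcp, hac, halg, fun b hb hbT => hfix b hb ?_⟩
  · -- `p ≠ ℓ` because `ℓ` is a unit of `A`
    rintro rfl
    have h1 := residue_ne_zero_of_inv_mem A hℓA hℓA' hℓ
    apply h1
    have : (⟨(p : K), hℓA⟩ : A) = ((p : ℕ) : A) := Subtype.ext (by simp)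
    rw [this, map_natCast]
    exact CharP.cast_eq_zero _ p
  · simp only [Finset.mem_union, Finset.mem_image, Finset.mem_insert, Finset.mem_singleton]
    exact Or.inl (Or.inr ⟨u, hu, rfl⟩)
  · refine Subring.closure_mono ?_ hbT
    intro x hx
    simp only [Finset.coe_union, Finset.coe_image, Set.mem_union] at hx ⊢
    rcases hx with (hx | hx) | hx
    · exact Or.inl (Or.inl (Or.inl hx))
    · exact Or.inl (Or.inl (Or.inr hx))
    · exact Or.inl (Or.inr hx)

/-- Instance form of local finiteness: a field of characteristic `p` all of whose elements are fixed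
by a power of the Frobenius is algebraic over `ZMod p` (for ANY `ZMod p`-algebra structure). -/
theorem isAlgebraic_zmod_of_forall_pow_eq {κ : Type*} [Field κ] (p : ℕ) [Fact p.Prime]
    [Algebra (ZMod p) κ] (h : ∀ x : κ, ∃ m : ℕ, 0 < m ∧ x ^ p ^ m = x) :
    Algebra.IsAlgebraic (ZMod p) κ := by
  refine ⟨fun x => ?_⟩
  obtain ⟨m, hm, hx⟩ := h x
  refine ⟨X ^ p ^ m - X, ?_, by simp [hx]⟩
  exact FiniteField.X_pow_card_pow_sub_X_ne_zero (ZMod p) hm.ne' (Fact.out : p.Prime).one_lt

end Fermat.Agent.GJ27.Chev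

end
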